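import Fermat.Agent.DS.G1.Classes.Defs
import Fermat.Agent.DS.G1.Multiplier
import Fermat.Agent.HK.RootChar

/-!
# Formal properties of classes
-/

set_option autoImplicit false

noncomputable section

open UpperHalfPlane CongruenceSubgroup Filter Topology Function
open scoped MatrixGroups Manifold

namespace Fermat.Agent.DS.G1

open Fermat.Agent.HK (IsNonHyperbolic)

local notation "𝕢" => Periodic.qParam

section General

variable {M N : ℕ} [NeZero M] [NeZero N]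

omit [NeZero M] in
theorem fam_base_smul (X : Fam M N) (γ : Gamma1 M) (τ : ℍ) :
    X.1 (base M) ((γ : SL(2, ℤ)) • τ) = X.1 (base M) τ := by
  rw [← fam_rowMul, (rowMul_base_eq_iff _).2 γ.2]

theorem fam_at_ne_zero {X : Fam M N} (hX : X ≠ 0) (v : PrimVec M) : X.1 v ≠ 0 := fun h =>
  hX (famAt_injective v (Subtype.ext (by simpa using h)))

omit [NeZero M] [NeZero N] in
theorem mdiff_comp_smul {f : ℍ → ℂ} (hf : MDiff f) (A : SL(2, ℤ)) :
    MDiff (fun τ => f (A • τ)) := by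
  have : MDiff (f ∘ fun τ : ℍ => A • τ) :=
    hf.comp (UpperHalfPlane.mdifferentiable_smul (by simp) : MDiff fun τ : ℍ => A • τ)
  exact this

omit [NeZero M] [NeZero N] in
theorem comp_smul_ne_zero {f : ℍ → ℂ} (hf : f ≠ 0) (A : SL(2, ℤ)) :
    (fun τ => f (A • τ)) ≠ 0 := by
  obtain ⟨τ, hτ⟩ := Function.ne_iff.1 hf
  refine Function.ne_iff.2 ⟨A⁻¹ • τ, ?_⟩
  simpa using hτ

omit [NeZero M] [NeZero N] in
theorem T_zpow_smul_vadd (w : ℤ) (τ : ℍ) :
    (ModularGroup.T ^ w) • τ = (w : ℝ) +ᵥ τ :=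
  modular_T_zpow_smul τ w

omit [NeZero M] [NeZero N] in
theorem tendsto_vadd_atImInfty (w : ℝ) :
    Tendsto (fun τ : ℍ => w +ᵥ τ) atImInfty atImInfty := by
  refine tendsto_comap_iff.2 ?_
  have : (UpperHalfPlane.im ∘ fun τ : ℍ => w +ᵥ τ) = UpperHalfPlane.im := by
    funext τ; simp
  rw [this]
  exact tendsto_comap

/-- A holomorphic periodic function with a power in `expFun` lies in `expFun`. -/
theorem mem_expFun_of_pow_mem {w : ℍ → ℂ} {n : ℕ} (hn : n ≠ 0) (hw : MDiff w) (hp : IsPer M w)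
    (h : (fun τ => w τ ^ n) ∈ expFun M) : w ∈ expFun M := by
  obtain ⟨-, -, m, hb⟩ := h
  refine ⟨hw, hp, m, ?_⟩
  obtain ⟨K, A, hK⟩ := isBoundedAtImInfty_iff.1
    (hb.mul (isBoundedAtImInfty_qParam_pow (natCast_pos_real M) (m * (n - 1))))
  refine isBoundedAtImInfty_iff.2 ⟨max 1 K, A, fun z hz => ?_⟩
  obtain ⟨k, rfl⟩ := Nat.exists_eq_succ_of_ne_zero hn
  have h1 := hK z hz
  simp only [Pi.mul_apply, Nat.succ_sub_one] at h1
  have e : (w z * 𝕢 (M : ℝ) z ^ m) ^ (k + 1) =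
      w z ^ (k + 1) * 𝕢 (M : ℝ) z ^ m * 𝕢 (M : ℝ) z ^ (m * k) := by
    rw [mul_pow, ← pow_mul, mul_add, mul_one, pow_add]
    ring
  rw [← e, norm_pow] at h1
  rcases le_total ‖w z * 𝕢 (M : ℝ) z ^ m‖ 1 with h2 | h2
  · exact h2.trans (le_max_left _ _)
  · exact ((le_self_pow₀ h2 (Nat.succ_ne_zero k)).trans h1).trans (le_max_right _ _)

omit [NeZero M] in
theorem rowMul_base_eq_imp {A B : SL(2, ℤ)} (h : rowMul (base M) A = rowMul (base M) B) :
    A * B⁻¹ ∈ Gamma1 M := by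
  rw [← rowMul_base_eq_iff, rowMul_mul, h, ← rowMul_mul, mul_inv_cancel, rowMul_one]

/-- An invariant function, meromorphic at all cusps, is the value at `(0, 1)` of a family. -/
theorem exists_fam_of_invariant {g : ℍ → ℂ}
    (hinv : ∀ (γ : Gamma1 M) (τ : ℍ), g ((γ : SL(2, ℤ)) • τ) = g τ)
    (hmem : ∀ A : SL(2, ℤ), (fun τ => g (A • τ)) ∈ expFun N) :
    ∃ G : Fam M N, ∀ (A : SL(2, ℤ)) (τ : ℍ), G.1 (rowMul (base M) A) τ = g (A • τ) := by
  choose a ha using fun v : PrimVec M => exists_rowMul_base v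
  have key : ∀ (A B : SL(2, ℤ)), rowMul (base M) A = rowMul (base M) B →
      ∀ τ : ℍ, g (A • τ) = g (B • τ) := fun A B h τ => by
    rw [← hinv ⟨_, rowMul_base_eq_imp h⟩ (B • τ), ← mul_smul, inv_mul_cancel_right]
  refine ⟨⟨fun v τ => g (a v • τ), fun v => hmem (a v), fun v γ τ => ?_⟩,
    fun A τ => key _ _ (ha _) τ⟩
  show g (a (rowMul v γ) • τ) = g (a v • γ • τ)
  rw [← mul_smul]
  exact key _ _ (by rw [ha, rowMul_mul, ha]) τ

/-- An invariant function with a power equal to a family is a family. -/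
theorem exists_fam_of_pow_eq {g : ℍ → ℂ} (hg : MDiff g)
    (hinv : ∀ (γ : Gamma1 M) (τ : ℍ), g ((γ : SL(2, ℤ)) • τ) = g τ) {n : ℕ} (hn : n ≠ 0)
    {Z : Fam M M} (hZ : ∀ τ, g τ ^ n = Z.1 (base M) τ) :
    ∃ G : Fam M M, G.1 (base M) = g ∧
      ∀ (A : SL(2, ℤ)) (τ : ℍ), G.1 (rowMul (base M) A) τ = g (A • τ) := by
  obtain ⟨G, hG⟩ := exists_fam_of_invariant hinv fun A =>
    mem_expFun_of_pow_mem hn (mdiff_comp_smul hg A) (fun τ => by
      rw [← Int.cast_natCast M, ← T_zpow_smul_vadd, ← mul_smul,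
        ← inv_mul_cancel_right (A * ModularGroup.T ^ (M : ℤ)) A, mul_smul]
      exact hinv (conjTM A) _) (by
      simp only [hZ, ← fam_rowMul]
      exact Z.2.1 _)
  exact ⟨G, funext fun τ => by simpa using hG 1 τ, hG⟩

end General

section Cusp

variable {M : ℕ} [NeZero M]

omit [NeZero M] in
theorem qParam_vadd (w : ℤ) (τ : ℍ) :
    𝕢 (M : ℝ) (((w : ℝ) +ᵥ τ : ℍ) : ℂ) =
      Complex.exp (2 * Real.pi * Complex.I / M) ^ w * 𝕢 (M : ℝ) τ := by
  rw [coe_vadd, Periodic.qParam, Periodic.qParam, ← Complex.exp_int_mul, ← Complex.exp_add]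
  congr 1
  push_cast
  ring

/-- A `w`-periodic element of `expFun M` only involves powers of `exp (2πiτ/w)`. -/
theorem dvd_order_mul_of_periodic (f : expFun M) (hf : f ≠ 0) (w : ℤ)
    (hper : ∀ τ : ℍ, (f : ℍ → ℂ) ((w : ℝ) +ᵥ τ) = (f : ℍ → ℂ) τ) :
    (M : ℤ) ∣ (expan M f).order * w := by
  obtain ⟨a, b, K, hK, hab, ht⟩ := exists_tendsto_ne_zero f hf
  set ζ := Complex.exp (2 * Real.pi * Complex.I / M) with hζdef
  have hζ : IsPrimitiveRoot ζ M := Complex.isPrimitiveRoot_exp M (NeZero.ne M)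
  have hζ0 : ζ ≠ 0 := Complex.exp_ne_zero _
  have h1 := ht.comp (tendsto_vadd_atImInfty (w : ℝ))
  have e : ((fun τ => (f : ℍ → ℂ) τ * 𝕢 (M : ℝ) τ ^ b / 𝕢 (M : ℝ) τ ^ a) ∘
      fun τ : ℍ => (w : ℝ) +ᵥ τ) = fun τ => ((ζ ^ w) ^ b / (ζ ^ w) ^ a) *
        ((f : ℍ → ℂ) τ * 𝕢 (M : ℝ) τ ^ b / 𝕢 (M : ℝ) τ ^ a) := by
    funext τ
    simp only [comp_apply, hper, qParam_vadd, mul_pow, ← hζdef]
    have : (ζ ^ w) ^ a ≠ 0 := pow_ne_zero _ (zpow_ne_zero _ hζ0)
    have : 𝕢 (M : ℝ) τ ^ a ≠ 0 := pow_ne_zero _ (Periodic.qParam_ne_zero _)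
    field_simp
  rw [e] at h1
  have h2 : (ζ ^ w) ^ b / (ζ ^ w) ^ a = 1 :=
    mul_right_cancel₀ hK ((tendsto_nhds_unique (ht.const_mul _) h1).trans (one_mul K).symm)
  rw [← hab, ← (hζ.zpow_eq_one_iff_dvd _), show ((a : ℤ) - b) * w = -((b - a : ℤ) * w) by ring,
    zpow_neg, inv_eq_one, mul_comm, zpow_mul, zpow_sub₀ (zpow_ne_zero _ hζ0), zpow_natCast,
    zpow_natCast]
  exact h2

/-- A root of an element of `expFun M` whose order is divisible at a cusp is periodic there. -/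
theorem eq_one_of_root_at_cusp {l : ℕ} (hl : l ≠ 0) {P : ℍ → ℂ} (hP : MDiff P) (f : expFun M)
    (hf : f ≠ 0) (hpow : ∀ τ, P τ ^ l = (f : ℍ → ℂ) τ) {w : ℕ} (hw : 0 < w)
    (hdvd : (l * M : ℤ) ∣ (expan M f).order * (w : ℤ)) {c : ℂ} (hcl : c ^ l = 1)
    (hc : ∀ τ : ℍ, P ((w : ℝ) +ᵥ τ) = c * P τ) : c = 1 := by
  obtain ⟨a, b, K, hK, hab, ht⟩ := exists_tendsto_ne_zero f hf
  obtain ⟨d, hd⟩ := hdvd
  have hwC : (w : ℂ) ≠ 0 := Nat.cast_ne_zero.2 hw.ne'
  have hMC : (M : ℂ) ≠ 0 := Nat.cast_ne_zero.2 (NeZero.ne M)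
  have hdC : ((a : ℂ) - b) * w = l * M * d := by
    rw [← hab] at hd
    exact_mod_cast hd
  let e : ℍ → ℂ := fun τ => Complex.exp (-(2 * Real.pi * Complex.I * d * (τ : ℂ) / w))
  have he : MDiff e := by
    have h0 : Differentiable ℂ
        (fun z : ℂ => Complex.exp (-(2 * Real.pi * Complex.I * d * z / w))) := by fun_prop
    exact UpperHalfPlane.mdifferentiable_iff.mpr (h0.differentiableOn.congr fun z hz => by
      simp [e, ofComplex_apply_of_im_pos (show 0 < z.im from hz)])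
  have hev : ∀ τ : ℍ, e ((w : ℝ) +ᵥ τ) = e τ := by
    intro τ
    simp only [e, coe_vadd]
    rw [Complex.exp_eq_exp_iff_exists_int]
    refine ⟨-d, ?_⟩
    push_cast
    field_simp
    ring
  have hU : (fun τ => (P τ * e τ) ^ l) =
      fun τ => (f : ℍ → ℂ) τ * 𝕢 (M : ℝ) τ ^ b / 𝕢 (M : ℝ) τ ^ a := by
    funext τ
    rw [mul_pow, hpow, mul_div_assoc]
    congr 1
    simp only [e, Periodic.qParam]
    rw [← Complex.exp_nat_mul, ← Complex.exp_nat_mul, ← Complex.exp_nat_mul, ← Complex.exp_sub]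
    congr 1
    push_cast
    field_simp
    linear_combination (τ : ℂ) * hdC
  set P1 : ℍ → ℂ := fun τ => P τ * e τ with hP1
  have hP1d : MDiff P1 := hP.mul he
  set U : ℍ → ℂ := fun τ => P1 τ ^ l with hUdef
  have hUd : MDiff U := hP1d.pow l
  have hUt : Tendsto U atImInfty (𝓝 K) := by rw [hU]; exact ht
  have hc1 : ∀ τ : ℍ, P1 ((w : ℝ) +ᵥ τ) = c * P1 τ := fun τ => by
    simp only [hP1, hc, hev]; ring
  have hwR : (0 : ℝ) < w := Nat.cast_pos.2 hw
  have hord : ∀ (F : ℍ → ℂ) (k : ℂ), MDiff F → (∀ τ : ℍ, F ((w : ℝ) +ᵥ τ) = F τ) →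
      Tendsto F atImInfty (𝓝 k) → k ≠ 0 → HK.cuspOrd (w : ℝ) F = 0 := by
    intro F k hF hFp hFt hk
    have hper := HK.periodic_ofComplex_of_vadd hFp
    have han := UpperHalfPlane.analyticAt_cuspFunction_zero hwR hper hF (hFt.isBigO_one ℝ)
    have h3 := han.continuousAt.tendsto.comp (qParam_tendsto_atImInfty hwR)
    have h4 : (cuspFunction (w : ℝ) F ∘ fun τ : ℍ => 𝕢 (w : ℝ) τ) = F := by
      funext τ
      simpa using eq_cuspFunction τ hwR.ne' hper
    rw [h4] at h3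
    have h5 : cuspFunction (w : ℝ) F 0 ≠ 0 := by rw [tendsto_nhds_unique h3 hFt]; exact hk
    simp [HK.cuspOrd, analyticOrderNatAt, (han.analyticOrderAt_eq_zero).2 h5]
  have hUp : ∀ τ : ℍ, U ((w : ℝ) +ᵥ τ) = U τ := fun τ => by
    simp only [hUdef, hc1, mul_pow, hcl, one_mul]
  have hU0 : U ≠ 0 := fun h0 => hK (tendsto_nhds_unique hUt (by rw [h0]; exact tendsto_const_nhds))
  refine HK.root_periodic_at_cusp hl hwR hP1d hUd (V := fun _ => 1) mdifferentiable_const hU0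
    (Function.ne_iff.2 ⟨UpperHalfPlane.I, one_ne_zero⟩) (HK.periodic_ofComplex_of_vadd hUp)
    (fun _ => rfl) (hUt.isBigO_one ℝ) (Filter.const_boundedAtFilter _ _)
    (fun τ => by simp [hUdef]) ?_ hc1
  rw [hord U K hUd hUp hUt hK,
    hord (fun _ => 1) 1 mdifferentiable_const (fun _ => rfl) tendsto_const_nhds one_ne_zero,
    sub_zero]
  exact dvd_zero _

end Cusp

variable {M : ℕ} [NeZero M] {l : ℕ} [NeZero l] [hl : Fact l.Prime]
  {X Y : Fam M M} {χ χ' : parHom M (ZMod l)}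

omit [NeZero M] hl in
theorem exists_stdAddChar_eq {z : ℂ} (h : z ^ l = 1) : ∃ a : ZMod l, ZMod.stdAddChar a = z := by
  obtain ⟨i, -, rfl⟩ := (Complex.isPrimitiveRoot_exp l (NeZero.ne l)).eq_pow_of_pow_eq_one h
  refine ⟨((i : ℤ) : ZMod l), ?_⟩
  rw [ZMod.stdAddChar_coe, ← Complex.exp_nat_mul]
  congr 1
  push_cast
  ring

omit [NeZero M] hl in
theorem stdAddChar_pow (a : ZMod l) : ZMod.stdAddChar a ^ l = (1 : ℂ) := by
  rw [← AddChar.map_nsmul_eq_pow, nsmul_eq_mul, ZMod.natCast_self, zero_mul,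
    AddChar.map_zero_eq_one]

theorem HasClass.ne_zero (h : HasClass l X χ) : X ≠ 0 := by
  obtain ⟨f, -, hf0, hf, -⟩ := h
  obtain ⟨τ, hτ⟩ := Function.ne_iff.1 hf0
  rintro rfl
  exact pow_ne_zero l hτ ((hf τ).trans rfl)

theorem HasClass.mul (h : HasClass l X χ) (h' : HasClass l Y χ') :
    HasClass l (X * Y) (χ + χ') := by
  obtain ⟨f, hfd, hf0, hf, hfc⟩ := h
  obtain ⟨g, hgd, hg0, hg, hgc⟩ := h'
  refine ⟨f * g, hfd.mul hgd, HK.mdiff_mul_ne_zero hfd hgd hf0 hg0, fun τ => ?_, fun γ τ => ?_⟩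
  · rw [Pi.mul_apply, mul_pow, hf, hg]
    rfl
  · rw [Pi.mul_apply, Pi.mul_apply, hfc, hgc, AddSubgroup.coe_add, AddMonoidHom.add_apply,
      AddChar.map_add_eq_mul]
    ring

theorem hasClass_pow_self {G : Fam M M} (hG : G ≠ 0) : HasClass l (G ^ l) 0 := by
  refine ⟨G.1 (base M), (G.2.1 _).1, fam_at_ne_zero hG _, fun τ => rfl, fun γ τ => ?_⟩
  rw [fam_base_smul, AddSubgroup.coe_zero, AddMonoidHom.zero_apply, AddChar.map_zero_eq_one,
    one_mul]

theorem hasClass_famConst {c : ℂ} (hc : c ≠ 0) : HasClass l (famConst M M c) 0 := by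
  obtain ⟨r, hr⟩ := IsAlgClosed.exists_pow_nat_eq c (Nat.pos_of_ne_zero (NeZero.ne l))
  rw [← hr, map_pow]
  refine hasClass_pow_self fun h => hc ?_
  have h' : r = 0 := congrFun (congrFun (congrArg Subtype.val h) (base M)) UpperHalfPlane.I
  rw [← hr, h', zero_pow (NeZero.ne l)]

theorem HasClass.pow (h : HasClass l X χ) (n : ℕ) : HasClass l (X ^ n) (n • χ) := by
  induction n with
  | zero =>
    rw [pow_zero, zero_smul, ← map_one (famConst M M)]
    exact hasClass_famConst one_ne_zero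
  | succ n ih =>
    rw [pow_succ, succ_nsmul]
    exact ih.mul h

theorem HasClass.unique (h : HasClass l X χ) (h' : HasClass l X χ') : χ = χ' := by
  obtain ⟨f, hfd, hf0, hf, hfc⟩ := h
  obtain ⟨g, hgd, hg0, hg, hgc⟩ := h'
  obtain ⟨c, -, rfl⟩ := HK.exists_const_of_pow_eq (NeZero.ne l) hfd hgd hg0
    fun τ => (hf τ).trans (hg τ).symm
  obtain ⟨τ, hτ⟩ := Function.ne_iff.1 hf0
  refine Subtype.ext (AddMonoidHom.ext fun x => ?_)
  obtain ⟨γ, rfl⟩ := Additive.ofMul.surjective x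
  refine ZMod.injective_stdAddChar (mul_right_cancel₀ hτ ?_)
  have h1 := hfc γ τ
  simp only [Pi.smul_apply, smul_eq_mul, hgc] at h1 ⊢
  linear_combination -h1

/-- Families with the same class differ by an `l`-th power. -/
theorem HasClass.exists_pow_of_eq (h : HasClass l X χ) (h' : HasClass l Y χ) :
    ∃ G : Fam M M, G ≠ 0 ∧ X * Y ^ (l - 1) = G ^ l := by
  have hne : X * Y ^ (l - 1) ≠ 0 := mul_ne_zero h.ne_zero (pow_ne_zero _ h'.ne_zero)
  have hc := h.mul (h'.pow (l - 1))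
  have h0 : χ + (l - 1) • χ = 0 := by
    rw [← succ_nsmul', Nat.sub_add_cancel (Nat.one_le_iff_ne_zero.2 (NeZero.ne l))]
    refine Subtype.ext (AddMonoidHom.ext fun x => ?_)
    rw [AddSubmonoidClass.coe_nsmul, AddMonoidHom.nsmul_apply, nsmul_eq_mul, ZMod.natCast_self,
      zero_mul]
    rfl
  rw [h0] at hc
  obtain ⟨g, hgd, hg0, hg, hgc⟩ := hc
  obtain ⟨G, hG, -⟩ := exists_fam_of_pow_eq hgd (fun γ τ => by
    rw [hgc, AddSubgroup.coe_zero, AddMonoidHom.zero_apply, AddChar.map_zero_eq_one, one_mul])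
    (NeZero.ne l) hg
  have e : X * Y ^ (l - 1) = G ^ l := famAt_injective (base M) (Subtype.ext (funext fun τ => by
    show _ = G.1 (base M) τ ^ l
    rw [hG, hg]
    rfl))
  exact ⟨G, fun h1 => hne (by rw [e, h1, zero_pow (NeZero.ne l)]), e⟩

omit [NeZero M] in
theorem stdAddChar_eq_one (χ : parHom M (ZMod l)) {γ : Gamma1 M}
    (h : IsNonHyperbolic (γ : SL(2, ℤ))) :
    ZMod.stdAddChar ((χ : Additive (Gamma1 M) →+ ZMod l) (Additive.ofMul γ)) = (1 : ℂ) := by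
  rw [mem_parHom.1 χ.2 γ h, AddChar.map_zero_eq_one]

/-- The translates of a root lie in `expFun`. -/
theorem root_comp_mem {f : ℍ → ℂ} (hfd : MDiff f) (hf : ∀ τ, f τ ^ l = X.1 (base M) τ)
    (hfc : ∀ (γ : Gamma1 M) (τ : ℍ), f ((γ : SL(2, ℤ)) • τ) =
      ZMod.stdAddChar ((χ : Additive (Gamma1 M) →+ ZMod l) (Additive.ofMul γ)) * f τ)
    (A : SL(2, ℤ)) : (fun τ => f (A • τ)) ∈ expFun M := by
  refine mem_expFun_of_pow_mem (NeZero.ne l) (mdiff_comp_smul hfd A) (fun τ => ?_) ?_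
  · rw [← Int.cast_natCast M, ← T_zpow_smul_vadd, ← mul_smul,
      ← inv_mul_cancel_right (A * ModularGroup.T ^ (M : ℤ)) A, mul_smul, ← coe_conjTM, hfc,
      stdAddChar_eq_one χ (γ := conjTM A) (by
        rw [coe_conjTM]; exact Fermat.Agent.HK.Multiplier.isNonHyperbolic_conj_T_zpow A (M : ℤ)),
      one_mul]
  · simp only [hf, ← fam_rowMul]
    exact X.2.1 _

omit [NeZero M] in
theorem conj_mem_or_neg {A : SL(2, ℤ)} {w : ℤ}
    (h : (rowMul (rowMul (base M) A) (ModularGroup.T ^ w)).1 = (rowMul (base M) A).1 ∨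
      (rowMul (rowMul (base M) A) (ModularGroup.T ^ w)).1 = -(rowMul (base M) A).1) :
    A * ModularGroup.T ^ w * A⁻¹ ∈ Gamma1 M ∨ -(A * ModularGroup.T ^ w * A⁻¹) ∈ Gamma1 M := by
  rcases h with h | h
  · left
    rw [← rowMul_base_eq_iff, rowMul_mul, rowMul_mul, Subtype.ext h, ← rowMul_mul,
      mul_inv_cancel, rowMul_one]
  · right
    have h' : rowMul (rowMul (base M) A) (ModularGroup.T ^ w) =
        rowMul (rowMul (base M) A) (-1) := Subtype.ext (by rw [h, rowMul_neg, rowMul_one])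
    rw [← rowMul_base_eq_iff,
      show -(A * ModularGroup.T ^ w * A⁻¹) = A * ModularGroup.T ^ w * -1 * A⁻¹ by simp,
      rowMul_mul, rowMul_mul, rowMul_mul, h', ← rowMul_mul, ← rowMul_mul, ← rowMul_mul]
    simp

theorem HasClass.nice (hl5 : 5 ≤ l) (h : HasClass l X χ) : NiceFam l X := by
  have _ := hl5
  have hX := h.ne_zero
  obtain ⟨f, hfd, hf0, hf, hfc⟩ := h
  have hpow : ∀ (A : SL(2, ℤ)) (τ : ℍ), X.1 (rowMul (base M) A) τ = f (A • τ) ^ l := fun A τ => by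
    rw [fam_rowMul, hf]
  refine ⟨hX, fun v τ => ?_, fun v w hvw => ?_⟩ <;> obtain ⟨A, rfl⟩ := exists_rowMul_base v
  · have hd := mdiff_comp_smul hfd A
    obtain ⟨m, hm⟩ := ENat.ne_top_iff_exists.1
      (MF.analyticOrderAt_ne_top hd (comp_smul_ne_zero hf0 A) τ)
    refine ⟨m, ?_⟩
    have e : X.1 (rowMul (base M) A) ∘ ofComplex = ((fun τ => f (A • τ)) ∘ ofComplex) ^ l :=
      funext fun z => hpow A _
    rw [e, analyticOrderAt_pow (MF.analyticAt_ofComplex_comp hd τ), ← hm]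
    simp
  · let r : expFun M := ⟨_, root_comp_mem hfd hf hfc A⟩
    have hr : famAt (rowMul (base M) A) X = r ^ l := Subtype.ext (funext fun τ => hpow A τ)
    have hr0 : r ≠ 0 := fun e => comp_smul_ne_zero hf0 A (congrArg Subtype.val e)
    rw [show famExp (rowMul (base M) A) X = expan M r ^ l by
      rw [← map_pow, ← hr]; rfl, HahnSeries.order_pow, nsmul_eq_mul, mul_assoc]
    refine mul_dvd_mul_left _ (dvd_order_mul_of_periodic r hr0 (w : ℤ) fun τ => ?_)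
    show f (A • (((w : ℤ) : ℝ) +ᵥ τ)) = f (A • τ)
    rw [← T_zpow_smul_vadd, ← mul_smul,
      ← inv_mul_cancel_right (A * ModularGroup.T ^ (w : ℤ)) A, mul_smul]
    have htr : IsNonHyperbolic (A * ModularGroup.T ^ (w : ℤ) * A⁻¹) :=
      Fermat.Agent.HK.Multiplier.isNonHyperbolic_conj_T_zpow A (w : ℤ)
    rcases conj_mem_or_neg hvw with hg | hg
    · rw [hfc ⟨_, hg⟩ (A • τ), stdAddChar_eq_one χ (γ := ⟨_, hg⟩) htr, one_mul]
    · rw [← ModularGroup.SL_neg_smul, hfc ⟨_, hg⟩ (A • τ),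
        stdAddChar_eq_one χ (γ := ⟨_, hg⟩) (by
          simpa [IsNonHyperbolic, Matrix.trace_neg] using htr), one_mul]

/-- A class is trivial as soon as the family is, up to `l`-th powers, an `l`-th power. -/
theorem HasClass.eq_zero_of_mul_pow {N : ℕ} [NeZero N] (h : HasClass l X χ) {D G : Fam M N}
    (hD : D ≠ 0)
    (he : ∀ τ, X.1 (base M) τ * D.1 (base M) τ ^ l = G.1 (base M) τ ^ l) : χ = 0 := by
  obtain ⟨f, hfd, hf0, hf, hfc⟩ := h
  have hP : MDiff (f * D.1 (base M)) := hfd.mul (D.2.1 _).1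
  have hP0 := HK.mdiff_mul_ne_zero hfd (D.2.1 (base M)).1 hf0 (fam_at_ne_zero hD _)
  obtain ⟨c, hc, hG⟩ := HK.exists_const_of_pow_eq (NeZero.ne l) (G.2.1 (base M)).1 hP hP0
    fun τ => by rw [Pi.mul_apply, mul_pow, hf, he]
  obtain ⟨τ, hτ⟩ := Function.ne_iff.1 hP0
  have hc0 : c ≠ 0 := fun h0 => by simp [h0, zero_pow (NeZero.ne l)] at hc
  refine Subtype.ext (AddMonoidHom.ext fun x => ?_)
  obtain ⟨γ, rfl⟩ := Additive.ofMul.surjective x
  refine ZMod.injective_stdAddChar ?_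
  rw [AddSubgroup.coe_zero, AddMonoidHom.zero_apply, AddChar.map_zero_eq_one]
  have h1 := fam_base_smul G γ τ
  rw [hG] at h1
  simp only [Pi.smul_apply, smul_eq_mul, Pi.mul_apply, fam_base_smul, hfc] at h1
  refine mul_right_cancel₀ (mul_ne_zero hc0 hτ) ?_
  simp only [Pi.mul_apply]
  linear_combination h1

theorem exists_hasClass (hl5 : 5 ≤ l) (hX : NiceFam l X) : ∃ χ, HasClass l X χ := by
  have hn := NeZero.ne l
  obtain ⟨G, hGa, hGp⟩ := HK.exists_root_upper hn (HK.analyticOnNhd_upper (X.2.1 (base M)).1)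
    fun z hz => hX.points (base M) ⟨z, hz⟩
  set f : ℍ → ℂ := fun τ => G τ with hfdef
  have hfd : MDiff f := by
    rw [UpperHalfPlane.mdifferentiable_iff]
    intro z hz
    refine ((hGa z hz).differentiableAt.congr_of_eventuallyEq ?_).differentiableWithinAt
    filter_upwards [isOpen_upperHalfPlaneSet.mem_nhds hz] with w hw
    simp [hfdef, ofComplex_apply_of_im_pos hw]
  have hf : ∀ τ, f τ ^ l = X.1 (base M) τ := fun τ => by
    simpa [hfdef] using hGp τ τ.im_pos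
  have hf0 : f ≠ 0 := by
    intro h0
    obtain ⟨τ, hτ⟩ := Function.ne_iff.1 (fam_at_ne_zero hX.ne_zero (base M))
    exact hτ (by rw [← hf, h0, Pi.zero_apply, zero_pow hn])
  have hex : ∀ γ : Gamma1 M, ∃ a : ZMod l,
      ∀ τ, f ((γ : SL(2, ℤ)) • τ) = ZMod.stdAddChar a * f τ := fun γ => by
    obtain ⟨c, hc, he⟩ := HK.exists_const_of_pow_eq hn (mdiff_comp_smul hfd γ) hfd hf0
      fun τ => by rw [hf, hf, fam_base_smul]
    obtain ⟨a, rfl⟩ := exists_stdAddChar_eq hc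
    exact ⟨a, fun τ => congrFun he τ⟩
  choose a ha using hex
  obtain ⟨τ₀, hτ₀⟩ := Function.ne_iff.1 hf0
  have huniq : ∀ (γ : Gamma1 M) (b : ZMod l),
      (∀ τ, f ((γ : SL(2, ℤ)) • τ) = ZMod.stdAddChar b * f τ) → a γ = b := fun γ b hb =>
    ZMod.injective_stdAddChar (mul_right_cancel₀ hτ₀ ((ha γ τ₀).symm.trans (hb τ₀)))
  have hmul : ∀ γ δ, a (γ * δ) = a γ + a δ := fun γ δ => huniq _ _ fun τ => by
    rw [Subgroup.coe_mul, mul_smul, ha, ha, AddChar.map_add_eq_mul, mul_assoc]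
  let φ : Additive (Gamma1 M) →+ ZMod l :=
    AddMonoidHom.mk' (fun x => a (Additive.toMul x)) fun x y => hmul _ _
  have hpar : ∀ (A : SL(2, ℤ)) (w : ℕ) (γ : Gamma1 M),
      ((γ : SL(2, ℤ)) = A * ModularGroup.T ^ (w : ℤ) * A⁻¹ ∨
        (γ : SL(2, ℤ)) = -(A * ModularGroup.T ^ (w : ℤ) * A⁻¹)) → a γ = 0 := by
    intro A w γ hγ
    have hact : ∀ τ : ℍ, f ((γ : SL(2, ℤ)) • A • τ) =
        f (A • ((w : ℝ) +ᵥ τ)) := fun τ => by
      rw [← Int.cast_natCast w, ← T_zpow_smul_vadd, ← mul_smul A]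
      rcases hγ with e | e <;> rw [e]
      · rw [← mul_smul, inv_mul_cancel_right]
      · rw [ModularGroup.SL_neg_smul, ← mul_smul, inv_mul_cancel_right]
    rcases Nat.eq_zero_or_pos w with rfl | hw
    · refine huniq γ 0 fun τ => ?_
      rw [AddChar.map_zero_eq_one, one_mul]
      simpa using hact (A⁻¹ • τ)
    · refine ZMod.injective_stdAddChar (a₂ := 0) ?_
      rw [AddChar.map_zero_eq_one]
      have hv : (rowMul (rowMul (base M) A) (ModularGroup.T ^ (w : ℤ))).1 =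
            (rowMul (base M) A).1 ∨
          (rowMul (rowMul (base M) A) (ModularGroup.T ^ (w : ℤ))).1 =
            -(rowMul (base M) A).1 := by
        rw [← rowMul_mul]
        rcases hγ with e | e
        · left
          rw [show A * ModularGroup.T ^ (w : ℤ) = (γ : SL(2, ℤ)) * A by
            rw [e, inv_mul_cancel_right], rowMul_mul, (rowMul_base_eq_iff _).2 γ.2]
        · right
          rw [show A * ModularGroup.T ^ (w : ℤ) = -((γ : SL(2, ℤ)) * A) by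
            rw [e, neg_mul, inv_mul_cancel_right, neg_neg], rowMul_neg, rowMul_mul,
            (rowMul_base_eq_iff _).2 γ.2]
      refine eq_one_of_root_at_cusp hn (mdiff_comp_smul hfd A)
        (famAt (rowMul (base M) A) X)
        (fun e => fam_at_ne_zero hX.ne_zero _ (congrArg Subtype.val e))
        (fun τ => by rw [coe_famAt, fam_rowMul, hf]) hw (hX.cusps _ w hv)
        (stdAddChar_pow _) fun τ => ?_
      show f (A • ((w : ℝ) +ᵥ τ)) = _ * f (A • τ)
      rw [← hact, ha]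
  refine ⟨⟨φ, mem_parHom.2 fun γ hγ => ?_⟩, f, hfd, hf0, hf, fun γ τ => ha γ τ⟩
  show a γ = 0
  rcases lt_or_eq_of_le hγ with hlt | heq
  · have h12 : γ ^ 12 = 1 := Subtype.ext (by
      rw [SubmonoidClass.coe_pow, HK.pow_twelve_eq_one_of_trace_sq_lt_four hlt]
      rfl)
    have h0 : (12 : ℕ) • φ (Additive.ofMul γ) = 0 := by
      rw [← map_nsmul, ← ofMul_pow, h12, ofMul_one, map_zero]
    rw [nsmul_eq_mul, mul_eq_zero] at h0
    refine h0.resolve_left ?_
    rw [ZMod.natCast_eq_zero_iff]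
    intro hdvd
    rcases hl.out.dvd_mul.1 (show l ∣ 4 * 3 from hdvd) with h | h <;>
      have := Nat.le_of_dvd (by norm_num) h <;> omega
  · obtain ⟨A, n, hn'⟩ := MF.Cosets.trace_sq_eq_four_iff.1 heq
    obtain ⟨w, rfl | rfl⟩ := n.eq_nat_or_neg
    · exact hpar A w γ hn'
    · have := hpar A w γ⁻¹ (by
        rcases hn' with e | e
        · left; rw [InvMemClass.coe_inv, e]; group
        · right
          rw [InvMemClass.coe_inv, e]
          apply inv_eq_of_mul_eq_one_right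
          rw [neg_mul_neg]
          group)
      have h1 : a γ⁻¹ = -a γ := φ.map_neg (Additive.ofMul γ)
      rwa [h1, neg_eq_zero] at this

end Fermat.Agent.DS.G1
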