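import Fermat.Agent.DS.G1.BaseSys
import Fermat.Agent.DS.G1.ParHom
import Mathlib.Analysis.Analytic.Order
import Mathlib.Analysis.SpecialFunctions.Complex.CircleAddChar

/-!
# Kummer classes of families

A family whose orders at all points and at all cusps are divisible by `l` is the `l`-th power of a
holomorphic function on `ℍ` with a character of `Γ₁(M)`; the character is its class.
-/

set_option autoImplicit false

noncomputable section

open UpperHalfPlane CongruenceSubgroup
open scoped MatrixGroups Manifold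

namespace Fermat.Agent.DS.G1

variable {M N : ℕ} [NeZero M] [NeZero N] (l : ℕ) [NeZero l]

/-- All orders are divisible by `l`: at the points of `ℍ`, and at every cusp in its own
parameter. -/
structure NiceFam (X : Fam M M) : Prop where
  ne_zero : X ≠ 0
  points : ∀ (v : PrimVec M) (τ : ℍ),
    ∃ m : ℕ, analyticOrderAt (X.1 v ∘ ofComplex) (τ : ℂ) = ((l * m : ℕ) : ℕ∞)
  cusps : ∀ (v : PrimVec M) (w : ℕ),
    (rowMul v (ModularGroup.T ^ (w : ℤ))).1 = v.1 ∨
      (rowMul v (ModularGroup.T ^ (w : ℤ))).1 = -v.1 →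
      (l * M : ℤ) ∣ (famExp v X).order * (w : ℤ)

/-- `X` is the `l`-th power of a function with character `χ`. -/
def HasClass (X : Fam M M) (χ : parHom M (ZMod l)) : Prop :=
  ∃ h : ℍ → ℂ, MDiff h ∧ h ≠ 0 ∧ (∀ τ, h τ ^ l = X.1 (base M) τ) ∧
    ∀ (γ : Gamma1 M) (τ : ℍ), h ((γ : SL(2, ℤ)) • τ) =
      ZMod.stdAddChar ((χ : Additive (Gamma1 M) →+ ZMod l) (Additive.ofMul γ)) * h τ

/-- The vector of the `j`-th factor of the Hecke transform: `(u a, b - j a)`. -/
def heckeUpper (u : (ZMod M)ˣ) (j : ℕ) (v : PrimVec M) : PrimVec M :=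
  scal u (twist u⁻¹ (rowMul v (ModularGroup.T ^ (-(j : ℤ)))))

end Fermat.Agent.DS.G1
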