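import Fermat.Agent.DS.G1.Classes.Basic
import Fermat.Agent.DS.G1.BaseSys
import Fermat.Agent.DS.G1.LevelOne
import Fermat.Agent.DS.AutC
import Fermat.Agent.HK.Kummer.CoeffRoot

/-!
# Every class has a representative with algebraic expansions
-/

set_option autoImplicit false

noncomputable section

open UpperHalfPlane CongruenceSubgroup Function
open scoped MatrixGroups Manifold

namespace Fermat.Agent.DS.G1

open ModularCurve (coeffMap coeffMap_coeff)

/-- `x` from the `l`-th powers of `x + ζ ^ i`. -/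
theorem sum_root_mul_add_pow {R : Type*} [CommRing R] [IsDomain R] {l : ℕ} (hl : l.Prime) {ζ : R}
    (hζ : IsPrimitiveRoot ζ l) (x : R) :
    ∑ i ∈ Finset.range l, ζ ^ i * (x + ζ ^ i) ^ l = (l : R) * l * x := by
  have h2 := hl.two_le
  simp only [add_pow, Finset.mul_sum]
  rw [Finset.sum_comm]
  have key : ∀ k, (∑ i ∈ Finset.range l,
      ζ ^ i * (x ^ k * (ζ ^ i) ^ (l - k) * (l.choose k : R))) =
        (x ^ k * (l.choose k : R)) * ∑ i ∈ Finset.range l, (ζ ^ (l - k + 1)) ^ i := fun k => by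
    rw [Finset.mul_sum]
    refine Finset.sum_congr rfl fun i _ => ?_
    rw [← pow_mul ζ (l - k + 1) i, mul_comm (l - k + 1) i, mul_add, mul_one, pow_add, pow_mul]
    ring
  rw [Finset.sum_congr rfl fun k _ => key k, Finset.sum_eq_single 1]
  · have : ∀ i : ℕ, (ζ ^ (l - 1 + 1)) ^ i = 1 := fun i => by
      rw [Nat.sub_add_cancel hl.one_le, hζ.pow_eq_one, one_pow]
    simp [this]
    ring
  · intro k hk hk1
    rw [(hζ.pow_of_coprime _ ?_).geom_sum_eq_zero hl.one_lt, mul_zero]
    rw [Nat.coprime_comm, hl.coprime_iff_not_dvd]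
    have hkl := Finset.mem_range.1 hk
    rintro ⟨d, hd⟩
    rcases Nat.lt_or_ge d 2 with hd2 | hd2
    · interval_cases d <;> omega
    · have : l * 2 ≤ l * d := Nat.mul_le_mul_left _ hd2
      omega
  · intro h
    exact absurd (Finset.mem_range.2 (by omega)) h

variable {M : ℕ} [NeZero M]

theorem isConj_one_iff {σ : ℂ →+* ℂ} {X Y : Fam M M} :
    IsConj σ 1 X Y ↔ ∀ v, famExp v Y = coeffMap σ (famExp v X) := by
  simp [IsConj, twist_one]

theorem order_famConst_mul {c : ℂ} (hc : c ≠ 0) {X : Fam M M} (hX : X ≠ 0) (v : PrimVec M) :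
    (famExp v (famConst M M c * X)).order = (famExp v X).order := by
  rw [map_mul, famExp_famConst, HahnSeries.C_apply,
    HahnSeries.order_mul (HahnSeries.single_ne_zero hc) (fam_ne_zero_exp hX v),
    HahnSeries.order_single hc, zero_add]

theorem coeff_famConst_mul (c : ℂ) (X : Fam M M) (v : PrimVec M) (n : ℤ) :
    (famExp v (famConst M M c * X)).coeff n = c * (famExp v X).coeff n := by
  rw [map_mul, famExp_famConst, HahnSeries.C_mul_eq_smul, HahnSeries.coeff_smul, smul_eq_mul]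

theorem order_prod_series {ι : Type*} (s : Finset ι) (f : ι → LaurentSeries ℂ)
    (h : ∀ i ∈ s, f i ≠ 0) : (∏ i ∈ s, f i).order = ∑ i ∈ s, (f i).order := by
  classical
  induction s using Finset.induction_on with
  | empty => simp
  | insert a s ha ih =>
    rw [Finset.prod_insert ha, Finset.sum_insert ha, HahnSeries.order_mul
      (h a (Finset.mem_insert_self a s))
      (Finset.prod_ne_zero_iff.2 fun i hi => h i (Finset.mem_insert_of_mem hi)),
      ih fun i hi => h i (Finset.mem_insert_of_mem hi)]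

/-- The sum of all orders of a family is at most zero. -/
theorem sum_order_le_zero [Fintype (PrimVec M)] {X : Fam M M} (hX : X ≠ 0) :
    ∑ v, (famExp v X).order ≤ 0 := by
  have hfib : primFibre (one_dvd M) (base 1) = (Finset.univ : Finset (PrimVec M)) :=
    Finset.ext fun v => by
      simp [mem_primFibre, subsingleton_primVec_one.elim (primRed (one_dvd M) v) (base 1)]
  have he : famExp (base 1) (famNorm (one_dvd M) X) = ∏ v, famExp v X := by
    rw [famExp_famNorm, hfib]
  by_contra hpos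
  rw [not_le, ← order_prod_series _ _ (fun v _ => fam_ne_zero_exp hX v), ← he] at hpos
  obtain ⟨c, hc⟩ := levelOne_bounded_const (famNorm (one_dvd M) X) (base 1) fun n hn =>
    HahnSeries.coeff_eq_zero_of_lt_order (hn.trans hpos)
  rw [hc, famExp_famConst, HahnSeries.C_apply] at hpos
  rcases eq_or_ne c 0 with rfl | hc0
  · simp at hpos
  · simp [HahnSeries.order_single hc0] at hpos

/-- The orders are at least `-B`. -/
def OrderBdd (B : ℕ) (X : Fam M M) : Prop := ∀ v, -(B : ℤ) ≤ (famExp v X).order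

theorem order_base_le [Fintype (PrimVec M)] {B : ℕ} {X : Fam M M} (hX : X ≠ 0)
    (hB : OrderBdd B X) : (famExp (base M) X).order ≤ B * Fintype.card (PrimVec M) := by
  classical
  have h := sum_order_le_zero hX
  rw [← Finset.add_sum_erase _ _ (Finset.mem_univ (base M))] at h
  have h2 := Finset.card_nsmul_le_sum (Finset.univ.erase (base M))
    (fun v => (famExp v X).order) (-(B : ℤ)) fun v _ => hB v
  rw [nsmul_eq_mul] at h2
  have h3 : ((Finset.univ.erase (base M)).card : ℤ) ≤ Fintype.card (PrimVec M) := by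
    exact_mod_cast (Finset.card_le_univ _)
  nlinarith [Int.natCast_nonneg B]

variable {l : ℕ} [NeZero l] [hl : Fact l.Prime]

/-- Every class is the class of some family. -/
theorem exists_hasClass_of_parHom (hl5 : 5 ≤ l) (h3 : 3 ≤ M) (χ : parHom M (ZMod l)) :
    ∃ X : Fam M M, HasClass l X χ := by
  have _ := hl5
  obtain ⟨f, hfd, hf0, hfc, hfe⟩ := exists_multiplierFun χ h3
  obtain ⟨X, hX⟩ := exists_fam_of_invariant (g := fun τ => f τ ^ l)
    (fun γ τ => by rw [hfc, mul_pow, stdAddChar_pow, one_mul]) fun A => by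
      obtain ⟨s, hs⟩ := hfe A
      exact pow_mem (mem_expFun_of_hasExp (mdiff_comp_smul hfd A) hs) l
  exact ⟨X, f, hfd, hf0, fun τ => by simpa using (hX 1 τ).symm, hfc⟩

section Roots

variable {f : ℍ → ℂ} {X : Fam M M} {χ : parHom M (ZMod l)}

/-- The translate of a root, in `expFun`. -/
def rootAt (hfd : MDiff f) (hf : ∀ τ, f τ ^ l = X.1 (base M) τ)
    (hfc : ∀ (γ : Gamma1 M) (τ : ℍ), f ((γ : SL(2, ℤ)) • τ) =
      ZMod.stdAddChar ((χ : Additive (Gamma1 M) →+ ZMod l) (Additive.ofMul γ)) * f τ)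
    (A : SL(2, ℤ)) : expFun M :=
  ⟨_, root_comp_mem hfd hf hfc A⟩

theorem famExp_eq_pow (hfd : MDiff f) (hf : ∀ τ, f τ ^ l = X.1 (base M) τ)
    (hfc : ∀ (γ : Gamma1 M) (τ : ℍ), f ((γ : SL(2, ℤ)) • τ) =
      ZMod.stdAddChar ((χ : Additive (Gamma1 M) →+ ZMod l) (Additive.ofMul γ)) * f τ)
    (A : SL(2, ℤ)) :
    famExp (rowMul (base M) A) X = expan M (rootAt hfd hf hfc A) ^ l := by
  rw [← map_pow]
  refine congrArg (expan M) (Subtype.ext (funext fun τ => ?_))
  show X.1 _ τ = f (A • τ) ^ l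
  rw [fam_rowMul, hf]

end Roots

omit [NeZero M] [NeZero l] in
theorem char_l_nsmul (χ : parHom M (ZMod l)) : l • χ = 0 := by
  refine Subtype.ext (AddMonoidHom.ext fun x => ?_)
  rw [AddSubmonoidClass.coe_nsmul, AddMonoidHom.nsmul_apply, nsmul_eq_mul, ZMod.natCast_self,
    zero_mul]
  rfl

/-- At most one family of a class with bounded poles has the maximal order at `(0, 1)` and
leading coefficient `1`. -/
theorem eq_of_order_max {B : ℕ} {o : ℤ} {Y Y' : Fam M M} {κ : parHom M (ZMod l)}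
    (hY : HasClass l Y κ) (hY' : HasClass l Y' κ) (hB : OrderBdd B Y) (hB' : OrderBdd B Y')
    (ho : (famExp (base M) Y).order = o) (ho' : (famExp (base M) Y').order = o)
    (h1 : (famExp (base M) Y).coeff o = 1) (h1' : (famExp (base M) Y').coeff o = 1)
    (hmax : ∀ Z, HasClass l Z κ → OrderBdd B Z → (famExp (base M) Z).order ≤ o) : Y = Y' := by
  obtain ⟨f, hfd, hf0, hf, hfc⟩ := hY
  obtain ⟨g, hgd, hg0, hg, hgc⟩ := hY'
  set r := fun A => expan M (rootAt hfd hf hfc A) with hr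
  set r' := fun A => expan M (rootAt hgd hg hgc A) with hr'
  have he : ∀ A, famExp (rowMul (base M) A) Y = r A ^ l := famExp_eq_pow hfd hf hfc
  have he' : ∀ A, famExp (rowMul (base M) A) Y' = r' A ^ l := famExp_eq_pow hgd hg hgc
  have hne : ∀ A, r A ≠ 0 := fun A h0 => comp_smul_ne_zero hf0 A
    (congrArg Subtype.val ((map_eq_zero_iff _ expan_injective).1 h0))
  have hne' : ∀ A, r' A ≠ 0 := fun A h0 => comp_smul_ne_zero hg0 A
    (congrArg Subtype.val ((map_eq_zero_iff _ expan_injective).1 h0))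
  have hl0 : (0 : ℤ) < l := Int.natCast_pos.2 hl.out.pos
  have hord : (r 1).order = (r' 1).order := by
    have e := he 1
    have e' := he' 1
    rw [rowMul_one] at e e'
    rw [e, HahnSeries.order_pow, nsmul_eq_mul] at ho
    rw [e', HahnSeries.order_pow, nsmul_eq_mul] at ho'
    exact mul_left_cancel₀ hl0.ne' (ho.trans ho'.symm)
  set a := (r 1).order
  set c : ℂ := (r 1).coeff a / (r' 1).coeff a with hcdef
  have hb : (r' 1).coeff a ≠ 0 := by rw [hord]; exact HahnSeries.coeff_order_eq_zero.not.2 (hne' 1)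
  have hc : c ≠ 0 := div_ne_zero (HahnSeries.coeff_order_eq_zero.not.2 (hne 1)) hb
  set d : ℍ → ℂ := fun τ => f τ - c * g τ with hd
  by_cases hd0 : d = 0
  · have hfg : ∀ τ, f τ = c * g τ := fun τ => sub_eq_zero.1 (congrFun hd0 τ)
    have e : Y = famConst M M (c ^ l) * Y' := famAt_injective (base M) (Subtype.ext (funext fun τ => by
      show Y.1 (base M) τ = c ^ l * Y'.1 (base M) τ
      rw [← hf, ← hg, hfg, mul_pow]))
    have e1 := h1
    rw [e, coeff_famConst_mul, h1', mul_one] at e1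
    rw [e, e1, map_one, one_mul]
  exfalso
  have hdd : MDiff d := hfd.sub (mdifferentiable_const.mul hgd)
  have hdc : ∀ (γ : Gamma1 M) (τ : ℍ), d ((γ : SL(2, ℤ)) • τ) =
      ZMod.stdAddChar ((κ : Additive (Gamma1 M) →+ ZMod l) (Additive.ofMul γ)) * d τ :=
    fun γ τ => by simp only [hd, hfc, hgc]; ring
  let e : SL(2, ℤ) → expFun M := fun A =>
    rootAt hfd hf hfc A - ⟨_, const_mem_expFun c⟩ * rootAt hgd hg hgc A
  obtain ⟨D, hD⟩ := exists_fam_of_invariant (g := fun τ => d τ ^ l)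
    (fun γ τ => by rw [hdc, mul_pow, stdAddChar_pow, one_mul]) fun A => (e A ^ l).2
  have hDclass : HasClass l D κ := ⟨d, hdd, hd0, fun τ => by simpa using (hD 1 τ).symm, hdc⟩
  have heD : ∀ A, famExp (rowMul (base M) A) D = (r A - HahnSeries.C c * r' A) ^ l := fun A => by
    have : famAt (rowMul (base M) A) D = e A ^ l := Subtype.ext (funext fun τ => hD A τ)
    rw [show famExp (rowMul (base M) A) D = expan M (famAt (rowMul (base M) A) D) from rfl, this,
      map_pow, map_sub, map_mul, expan_const]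
    rfl
  have hne2 : ∀ A, r A - HahnSeries.C c * r' A ≠ 0 := fun A h0 =>
    fam_ne_zero_exp hDclass.ne_zero (rowMul (base M) A)
      (by rw [heD, h0, zero_pow (NeZero.ne l)])
  have hCord : ∀ A, (HahnSeries.C c * r' A).order = (r' A).order := fun A => by
    rw [HahnSeries.C_apply, HahnSeries.order_mul (HahnSeries.single_ne_zero hc) (hne' A),
      HahnSeries.order_single hc, zero_add]
  have hmin : ∀ A, min (r A).order (r' A).order ≤ (r A - HahnSeries.C c * r' A).order := fun A => by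
    rw [sub_eq_add_neg, ← hCord A, ← HahnSeries.order_neg (f := HahnSeries.C c * r' A)]
    exact HahnSeries.min_order_le_order_add (by rw [← sub_eq_add_neg]; exact hne2 A)
  have hDB : OrderBdd B D := fun v => by
    obtain ⟨A, rfl⟩ := exists_rowMul_base v
    have h1 := hB (rowMul (base M) A)
    have h2 := hB' (rowMul (base M) A)
    rw [he, HahnSeries.order_pow, nsmul_eq_mul] at h1
    rw [he', HahnSeries.order_pow, nsmul_eq_mul] at h2
    rw [heD, HahnSeries.order_pow, nsmul_eq_mul]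
    rcases min_le_iff.1 (hmin A) with h | h
    · exact h1.trans (mul_le_mul_of_nonneg_left h hl0.le)
    · exact h2.trans (mul_le_mul_of_nonneg_left h hl0.le)
  have hgt : a < (r 1 - HahnSeries.C c * r' 1).order := by
    refine lt_of_le_of_ne (le_trans (by rw [← hord, min_self]) (hmin 1)) fun heq => ?_
    refine HahnSeries.coeff_order_eq_zero.not.2 (hne2 1) ?_
    rw [← heq, HahnSeries.coeff_sub, HahnSeries.C_mul_eq_smul, HahnSeries.coeff_smul, smul_eq_mul,
      hcdef, div_mul_cancel₀ _ hb, sub_self]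
  have hle := hmax D hDclass hDB
  rw [← rowMul_one (base M), heD, HahnSeries.order_pow, nsmul_eq_mul] at hle
  rw [← rowMul_one (base M), he, HahnSeries.order_pow, nsmul_eq_mul] at ho
  exact not_lt.2 hle (ho ▸ mul_lt_mul_of_pos_left hgt hl0)

/-- All families have conjugates. -/
theorem exists_isConj_of_nice (hl5 : 5 ≤ l) {σ : ℂ →+* ℂ}
    (hconj : ∀ X : Fam M M, NiceFam l X → ∃ Y : Fam M M, NiceFam l Y ∧ IsConj σ 1 X Y)
    (G : Fam M M) : ∃ H : Fam M M, ∀ v, famExp v H = coeffMap σ (famExp v G) := by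
  let R : Subring (Fam M M) :=
    { carrier := {G | ∃ H : Fam M M, ∀ v, famExp v H = coeffMap σ (famExp v G)}
      zero_mem' := ⟨0, fun v => by simp⟩
      one_mem' := ⟨1, fun v => by simp⟩
      add_mem' := fun ⟨a, ha⟩ ⟨b, hb⟩ => ⟨a + b, fun v => by simp [ha v, hb v]⟩
      mul_mem' := fun ⟨a, ha⟩ ⟨b, hb⟩ => ⟨a * b, fun v => by simp [ha v, hb v]⟩
      neg_mem' := fun ⟨a, ha⟩ => ⟨-a, fun v => by simp [ha v]⟩ }
  have hC : ∀ c, famConst M M c ∈ R := fun c => ⟨famConst M M (σ c), fun v => by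
    rw [famExp_famConst, famExp_famConst]
    ext n
    rw [coeffMap_coeff, HahnSeries.C_apply, HahnSeries.C_apply, HahnSeries.coeff_single,
      HahnSeries.coeff_single]
    split_ifs <;> simp⟩
  have hpow : ∀ G : Fam M M, G ^ l ∈ R := fun G => by
    rcases eq_or_ne G 0 with rfl | hG
    · rw [zero_pow (NeZero.ne l)]
      exact zero_mem R
    · obtain ⟨Y, -, hY⟩ := hconj _ ((hasClass_pow_self (l := l) hG).nice hl5)
      exact ⟨Y, isConj_one_iff.1 hY⟩
  have hζ0 := Complex.isPrimitiveRoot_exp l (NeZero.ne l)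
  set z := Complex.exp (2 * Real.pi * Complex.I / l)
  have hinj : Function.Injective (famConst M M) := (famConst M M).injective
  have hζ : IsPrimitiveRoot (famConst M M z) l := hζ0.map_of_injective hinj
  have hll : ((l : ℂ) * l) ≠ 0 := mul_ne_zero (Nat.cast_ne_zero.2 (NeZero.ne l))
    (Nat.cast_ne_zero.2 (NeZero.ne l))
  have e : G = famConst M M ((l : ℂ) * l)⁻¹ *
      ∑ i ∈ Finset.range l, famConst M M z ^ i * (G + famConst M M z ^ i) ^ l := by
    rw [sum_root_mul_add_pow hl.out hζ, ← map_natCast (famConst M M) l, ← map_mul, ← mul_assoc,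
      ← map_mul, inv_mul_cancel₀ hll, map_one, one_mul]
  show G ∈ R
  rw [e]
  exact mul_mem (hC _) (sum_mem fun i _ => mul_mem (pow_mem (hC _) i) (hpow _))

theorem coeffMap_symm_apply {σ τ : ℂ →+* ℂ} (h : ∀ x, τ (σ x) = x) (s : LaurentSeries ℂ) :
    coeffMap τ (coeffMap σ s) = s := by
  ext n
  simp [h]

/-- If endomorphisms of `ℂ` fixing the algebraic numbers act on nice families, every class has a
representative with algebraic expansions. -/
theorem exists_algebraic_rep (hl5 : 5 ≤ l) (h3 : 3 ≤ M)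
    (hconj : ∀ σ : ℂ →+* ℂ, (∀ z, IsAlgebraic ℚ z → σ z = z) → ∀ X : Fam M M, NiceFam l X →
      ∃ Y : Fam M M, NiceFam l Y ∧ IsConj σ 1 X Y)
    (χ : parHom M (ZMod l)) :
    ∃ X : Fam M M, HasClass l X χ ∧ X ∈ intFam M M Kb.toSubfield.toSubring := by
  classical
  let := Fintype.ofFinite (PrimVec M)
  obtain ⟨X0, hX0⟩ := exists_hasClass_of_parHom hl5 h3 χ
  set B : ℕ := ∑ v, (famExp v X0).order.natAbs
  have hB0 : OrderBdd B X0 := fun v => by
    have h1 := Finset.single_le_sum (f := fun v => (famExp v X0).order.natAbs)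
      (fun v _ => Nat.zero_le _) (Finset.mem_univ v)
    have h2 : ((famExp v X0).order.natAbs : ℤ) ≤ B := Int.ofNat_le.2 h1
    omega
  obtain ⟨o, ⟨X1, hX1, hB1, ho1⟩, hmax⟩ := Int.exists_greatest_of_bdd
    (P := fun o => ∃ X, HasClass l X χ ∧ OrderBdd B X ∧ (famExp (base M) X).order = o)
    ⟨B * Fintype.card (PrimVec M), fun z ⟨X, hX, hB, hz⟩ => hz ▸ order_base_le hX.ne_zero hB⟩
    ⟨_, X0, hX0, hB0, rfl⟩
  have hmax' : ∀ Z, HasClass l Z χ → OrderBdd B Z → (famExp (base M) Z).order ≤ o :=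
    fun Z hZ hBZ => hmax _ ⟨Z, hZ, hBZ, rfl⟩
  -- normalise the leading coefficient
  set c := (famExp (base M) X1).coeff o with hcdef
  have hc : c ≠ 0 := by
    rw [hcdef, ← ho1]
    exact HahnSeries.coeff_order_eq_zero.not.2 (fam_ne_zero_exp hX1.ne_zero _)
  obtain ⟨X, hXdef⟩ : ∃ X, X = famConst M M c⁻¹ * X1 := ⟨_, rfl⟩
  have hX : HasClass l X χ := by
    have := (hasClass_famConst (l := l) (M := M) (inv_ne_zero hc)).mul hX1
    rwa [zero_add, ← hXdef] at this
  have hXB : OrderBdd B X := fun v => by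
    rw [hXdef, order_famConst_mul (inv_ne_zero hc) hX1.ne_zero]; exact hB1 v
  have hXo : (famExp (base M) X).order = o := by
    rw [hXdef, order_famConst_mul (inv_ne_zero hc) hX1.ne_zero, ho1]
  have hX1c : (famExp (base M) X).coeff o = 1 := by
    rw [hXdef, coeff_famConst_mul, inv_mul_cancel₀ hc]
  refine ⟨X, hX, mem_intFam.2 fun v n => ?_⟩
  have hfix : ∀ σ : ℂ ≃ₐ[Kb] ℂ, ∀ z, IsAlgebraic ℚ z →
      (σ.toAlgHom.toRingHom : ℂ →+* ℂ) z = z := fun σ z hz =>
    σ.commutes (⟨z, isAlgebraic_iff_mem_Kb.1 hz⟩ : Kb)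
  set S := {Y : Fam M M | ∃ σ : ℂ ≃ₐ[Kb] ℂ,
    ∀ v, famExp v Y = coeffMap σ.toAlgHom.toRingHom (famExp v X)} with hS
  have hprop : ∀ Y ∈ S, ∃ κ : parHom M (ZMod l), HasClass l Y κ ∧ OrderBdd B Y ∧
      (famExp (base M) Y).order = o ∧ (famExp (base M) Y).coeff o = 1 ∧
      ∀ Z, HasClass l Z κ → OrderBdd B Z → (famExp (base M) Z).order ≤ o := by
    rintro Y ⟨σ, hσ⟩
    obtain ⟨Y', hY'n, hY'⟩ := hconj _ (hfix σ) X (hX.nice hl5)
    obtain rfl : Y = Y' := fam_ext_exp fun v => by rw [hσ, isConj_one_iff.1 hY']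
    obtain ⟨κ, hκ⟩ := exists_hasClass hl5 hY'n
    refine ⟨κ, hκ, fun v => ?_, ?_, ?_, fun Z hZ hBZ => ?_⟩
    · rw [hσ, HK.order_coeffMap]; exact hXB v
    · rw [hσ, HK.order_coeffMap, hXo]
    · rw [hσ, coeffMap_coeff, hX1c, map_one]
    · obtain ⟨Z', hZ'n, hZ'⟩ := hconj _ (hfix σ.symm) Z (hZ.nice hl5)
      rw [isConj_one_iff] at hZ'
      obtain ⟨G, -, hG⟩ := hκ.exists_pow_of_eq hZ
      obtain ⟨G', hG'⟩ := exists_isConj_of_nice hl5 (hconj _ (hfix σ.symm)) G
      obtain ⟨κ', hκ'⟩ := exists_hasClass hl5 hZ'n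
      have e : X * Z' ^ (l - 1) = G' ^ l := fam_ext_exp fun v => by
        rw [map_mul, map_pow, map_pow, hG', hZ', ← map_pow (coeffMap _), ← map_pow (coeffMap _),
          ← map_pow (famExp v) G l, ← hG, map_mul, map_pow, map_mul, hσ, map_pow,
          coeffMap_symm_apply fun x => σ.symm_apply_apply x, map_pow]
      have hG'0 : G' ≠ 0 := fun h0 => by
        rw [h0, zero_pow (NeZero.ne l)] at e
        exact mul_ne_zero hX.ne_zero (pow_ne_zero _ hκ'.ne_zero) e
      have h0 := (hX.mul (hκ'.pow (l - 1))).unique (e ▸ hasClass_pow_self hG'0)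
      have hκχ : κ' = χ := by
        have h1 : (l - 1) • κ' + κ' = 0 := by
          rw [← succ_nsmul, Nat.sub_add_cancel hl.out.one_le, char_l_nsmul]
        rw [eq_neg_of_add_eq_zero_right h1, eq_neg_of_add_eq_zero_left h0]
      have hle := hmax' Z' (hκχ ▸ hκ') fun v => by
        rw [hZ', HK.order_coeffMap]; exact hBZ v
      rwa [hZ', HK.order_coeffMap] at hle
  choose κ hκ using hprop
  have hinj : Function.Injective fun Y : S => κ Y.1 Y.2 := fun Y Y' h => by
    obtain ⟨h1, h2, h3, h4, h5⟩ := hκ Y.1 Y.2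
    obtain ⟨h1', h2', h3', h4', -⟩ := hκ Y'.1 Y'.2
    exact Subtype.ext (eq_of_order_max h1 ((show κ Y'.1 Y'.2 = κ Y.1 Y.2 from h.symm) ▸ h1') h2 h2'
      h3 h3' h4 h4' h5)
  have hSfin : S.Finite := Set.finite_coe_iff.1 (Finite.of_injective _ hinj)
  show (famExp v X).coeff n ∈ Kb
  set x := (famExp v X).coeff n with hx
  by_contra hxK
  have hxr : x ∉ Set.range (algebraMap Kb ℂ) := by
    rintro ⟨y, hy⟩
    exact hxK (hy ▸ y.2)
  choose σ hσ using fun m : ℕ ↦ FF.ConstExt.exists_algEquiv_translate hxr ((m : ℕ) : Kb)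
  refine Set.infinite_range_of_injective (f := fun m : ℕ ↦ x + m)
    (fun a b hab ↦ by simpa using hab) ((hSfin.image fun Y => (famExp v Y).coeff n).subset ?_)
  rintro _ ⟨m, rfl⟩
  obtain ⟨Y, -, hY⟩ := hconj _ (hfix (σ m)) X (hX.nice hl5)
  refine ⟨Y, ⟨σ m, isConj_one_iff.1 hY⟩, ?_⟩
  show (famExp v Y).coeff n = x + m
  rw [isConj_one_iff.1 hY, coeffMap_coeff, ← hx]
  simpa using hσ m

end Fermat.Agent.DS.G1
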