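import Fermat.Agent.DS.G1.Classes.Basic
import Fermat.Agent.DS.G1.Transfer
import Fermat.Agent.HK.HeckePeriods

/-!
# Hecke and diamond transforms of families
-/

set_option autoImplicit false

noncomputable section

open UpperHalfPlane CongruenceSubgroup Filter Topology Function Matrix
open scoped MatrixGroups Manifold

namespace Fermat.Agent.DS.G1

local notation "𝕢" => Periodic.qParam

variable {M : ℕ} [NeZero M] {l : ℕ} [NeZero l] [hl : Fact l.Prime]
  (p : ℕ) [hp : Fact p.Prime] (hpM : ¬ p ∣ M)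

/-- The unit `p` modulo `M`. -/
def primeUnit : (ZMod M)ˣ :=
  ZMod.unitOfCoprime p ((Nat.Prime.coprime_iff_not_dvd hp.out).2 hpM)

/-- The matrix of the `i`-th factor. -/
def famHeckeMat (i : Option (Fin p)) : Matrix (Fin 2) (Fin 2) ℤ :=
  match i with
  | some j => !![1, (j : ℤ); 0, (p : ℤ)]
  | none => !![(p : ℤ), 0; 0, 1]

/-- The same in `GL₂(ℝ)`. -/
def famHeckeGL (i : Option (Fin p)) : GL (Fin 2) ℝ :=
  match i with
  | some j => ModularForm.heckeMatrix p j
  | none => ModularForm.heckeDiagMatrix p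

/-- The vector of the `i`-th factor at `v`. -/
def famHeckeVec (i : Option (Fin p)) (v : PrimVec M) : PrimVec M :=
  match i with
  | some j => heckeUpper (primeUnit p hpM) (j : ℕ) v
  | none => twist (primeUnit p hpM) v

omit [NeZero M] in
theorem coe_primeUnit : ((primeUnit p hpM : (ZMod M)ˣ) : ZMod M) = (p : ZMod M) :=
  ZMod.coe_unitOfCoprime _ _

omit [NeZero M] in
theorem coe_heckeUpper (u : (ZMod M)ˣ) (j : ℕ) (v : PrimVec M) :
    (heckeUpper u j v).1 = ![(u : ZMod M) * v.1 0, v.1 1 - (j : ZMod M) * v.1 0] := by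
  funext c
  fin_cases c <;>
    simp only [heckeUpper, scal_apply, twist_fst, twist_snd, rowMul_T_zpow, Matrix.cons_val_zero,
      Matrix.cons_val_one, Fin.zero_eta, Fin.mk_one, Units.mul_inv_cancel_left]
  push_cast
  ring

omit [NeZero M] in
theorem famHeckeVec_spec (i : Option (Fin p)) (v : PrimVec M) :
    (famHeckeVec p hpM i v).1 ᵥ* (famHeckeMat p i).map (Int.cast : ℤ → ZMod M) =
      (p : ZMod M) • v.1 := by
  have hu := coe_primeUnit p hpM
  funext c
  cases i with
  | none =>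
    fin_cases c <;>
      simp [famHeckeVec, famHeckeMat, vecMul, dotProduct, Fin.sum_univ_two, hu] <;> ring
  | some j =>
    fin_cases c <;>
      simp [famHeckeVec, famHeckeMat, coe_heckeUpper, vecMul, dotProduct, Fin.sum_univ_two, hu] <;> ring

omit [NeZero M] in
include hpM in
theorem famHeckeVec_unique (i : Option (Fin p)) (v r : PrimVec M)
    (h : r.1 ᵥ* (famHeckeMat p i).map (Int.cast : ℤ → ZMod M) = (p : ZMod M) • v.1) :
    r = famHeckeVec p hpM i v := by
  rw [← famHeckeVec_spec p hpM i v] at h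
  have hdet : ((famHeckeMat p i).map (Int.cast : ℤ → ZMod M)).det = (p : ZMod M) := by
    cases i <;> simp [famHeckeMat, det_fin_two]
  have h' := congrArg (fun x => x ᵥ* ((famHeckeMat p i).map (Int.cast : ℤ → ZMod M)).adjugate) h
  simp only [vecMul_vecMul, mul_adjugate, hdet, vecMul_smul, vecMul_one] at h'
  refine Subtype.ext (funext fun c => ?_)
  have h'' := congrFun h' c
  simp only [Pi.smul_apply, smul_eq_mul] at h''
  rw [← coe_primeUnit p hpM] at h''
  exact (Units.mul_right_inj _).1 h''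

omit [NeZero M] in
include hpM in
/-- Right multiplication by an element of `SL(2, ℤ)` permutes the factors. -/
theorem exists_famHecke_next (γ : SL(2, ℤ)) :
    ∃ (σ : Option (Fin p) → Option (Fin p)) (c : Option (Fin p) → SL(2, ℤ)), Bijective σ ∧
      ∀ i, Matrix.SpecialLinearGroup.mapGL ℝ (c i) * famHeckeGL p (σ i) =
          famHeckeGL p i * Matrix.SpecialLinearGroup.mapGL ℝ γ ∧
        ∀ v : PrimVec M,
          rowMul (famHeckeVec p hpM i v) (c i) = famHeckeVec p hpM (σ i) (rowMul v γ) := by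
  have h1 : ¬ p ∣ 1 := fun h => hp.out.ne_one (Nat.dvd_one.1 h)
  set e := deltaIdx 1 p h1
  let g : Gamma0 1 := ⟨γ, Gamma0_mem.2 (Subsingleton.elim _ _)⟩
  have hmat : ∀ i, HK.heckeMat (e i) = famHeckeMat p i := fun i => by cases i <;> rfl
  have hgl : ∀ i, HK.heckeGL (e i) = famHeckeGL p i := fun i => by cases i <;> rfl
  refine ⟨fun i => e.symm (HK.heckeNext g (e i)), fun i => (HK.heckeCoc g (e i) : SL(2, ℤ)),
    e.symm.bijective.comp ((HK.heckeNext_bijective g).comp e.bijective), fun i => ⟨?_, fun v => ?_⟩⟩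
  · rw [← hgl, ← hgl, Equiv.apply_symm_apply]
    exact HK.heckeCoc_mul_heckeGL g (e i)
  · refine famHeckeVec_unique p hpM _ _ _ ?_
    have h := congrArg (fun x => x.map (Int.castRingHom (ZMod M)))
      (HK.heckeCoc_mul_heckeMat g (e i))
    simp only [Matrix.map_mul, hmat i] at h
    rw [← hmat, Equiv.apply_symm_apply]
    show (famHeckeVec p hpM i v).1 ᵥ* ((HK.heckeCoc g (e i) : SL(2, ℤ)) :
      Matrix (Fin 2) (Fin 2) ℤ).map (Int.cast : ℤ → ZMod M) ᵥ* _ =
        (p : ZMod M) • (v.1 ᵥ* (γ : Matrix (Fin 2) (Fin 2) ℤ).map (Int.cast : ℤ → ZMod M))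
    rw [vecMul_vecMul, ← smul_vecMul, ← famHeckeVec_spec p hpM i v, vecMul_vecMul]
    exact congrArg _ h

/-- The value of the Hecke transform. -/
def famHeckeFun (X : Fam M M) (v : PrimVec M) (τ : ℍ) : ℂ :=
  ∏ i : Option (Fin p), X.1 (famHeckeVec p hpM i v) (famHeckeGL p i • τ)

theorem famHeckeFun_rowMul (X : Fam M M) (v : PrimVec M) (γ : SL(2, ℤ)) (τ : ℍ) :
    famHeckeFun p hpM X (rowMul v γ) τ = famHeckeFun p hpM X v (γ • τ) := by
  obtain ⟨σ, c, hσ, h⟩ := exists_famHecke_next p hpM γ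
  rw [famHeckeFun, ← hσ.prod_comp fun i => X.1 (famHeckeVec p hpM i (rowMul v γ))
    (famHeckeGL p i • τ)]
  refine Finset.prod_congr rfl fun i _ => ?_
  rw [← (h i).2 v, fam_rowMul]
  refine congrArg _ ?_
  show Matrix.SpecialLinearGroup.mapGL ℝ (c i) • famHeckeGL p (σ i) • τ =
    famHeckeGL p i • Matrix.SpecialLinearGroup.mapGL ℝ γ • τ
  rw [← mul_smul, ← mul_smul, (h i).1]

omit hl [NeZero l] in
/-- Composition with a map scaling the imaginary part. -/
theorem exists_bdd_comp (f : expFun M) {g : ℍ → ℍ} {c : ℝ} (hc : 0 < c) {n : ℕ} (hcn : c ≤ n)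
    (him : ∀ τ, (g τ).im = c * τ.im) :
    ∃ m : ℕ, IsBoundedAtImInfty (fun τ => (f : ℍ → ℂ) (g τ) * 𝕢 (M : ℝ) τ ^ m) := by
  obtain ⟨-, -, m, hb⟩ := f.2
  refine ⟨n * m, ?_⟩
  obtain ⟨K, A, hK⟩ := isBoundedAtImInfty_iff.1 hb
  refine isBoundedAtImInfty_iff.2 ⟨K, A / c, fun z hz => ?_⟩
  refine le_trans ?_ (hK (g z) (by rw [him]; exact (div_le_iff₀' hc).1 hz))
  rw [norm_mul, norm_mul, norm_pow, norm_pow, pow_mul]
  refine mul_le_mul_of_nonneg_left (pow_le_pow_left₀ (pow_nonneg (norm_nonneg _) _) ?_ m)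
    (norm_nonneg _)
  have h1 : ∀ w : ℍ, ‖𝕢 (M : ℝ) (w : ℂ)‖ = Real.exp (-2 * Real.pi * w.im / M) := fun w => by
    rw [Periodic.norm_qParam]
    rfl
  rw [h1, h1, ← Real.exp_nat_mul, Real.exp_le_exp, him, mul_div_assoc', div_le_div_iff_of_pos_right
    (natCast_pos_real M)]
  nlinarith [mul_le_mul_of_nonneg_right hcn (mul_pos (mul_pos (two_pos (α := ℝ)) Real.pi_pos) z.im_pos).le]

omit [NeZero M] hp in
theorem det_famHeckeGL_pos (i : Option (Fin p)) : 0 < (famHeckeGL p i).det.val := by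
  cases i with
  | none => exact ModularForm.det_heckeDiagMatrix_pos p
  | some j => exact ModularForm.det_heckeMatrix_pos p j

theorem famHeckeFun_mem (X : Fam M M) (v : PrimVec M) : famHeckeFun p hpM X v ∈ expFun M := by
  refine ⟨?_, fun τ => ?_, ?_⟩
  · have hd : ∀ i, MDiff (fun τ => X.1 (famHeckeVec p hpM i v) (famHeckeGL p i • τ)) := fun i => by
      have : MDiff (X.1 (famHeckeVec p hpM i v) ∘ fun τ : ℍ => famHeckeGL p i • τ) :=
        (X.2.1 _).1.comp (UpperHalfPlane.mdifferentiable_smul (det_famHeckeGL_pos p i) :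
          MDiff fun τ : ℍ => famHeckeGL p i • τ)
      exact this
    have h := Finset.prod_induction
      (fun i => fun τ : ℍ => X.1 (famHeckeVec p hpM i v) (famHeckeGL p i • τ))
      (fun F : ℍ → ℂ => MDiff F)
      (fun a b ha hb => ha.mul hb) mdifferentiable_const
      (fun i (_ : i ∈ Finset.univ) => hd i)
    convert h using 1
    funext τ
    simp [famHeckeFun, Finset.prod_apply]
  · rw [← Int.cast_natCast M, ← T_zpow_smul_vadd, ← famHeckeFun_rowMul]
    congr 1
    refine Subtype.ext ?_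
    rw [rowMul_T_zpow]
    funext i
    fin_cases i <;> simp
  · have hb : ∀ i, ∃ m : ℕ, IsBoundedAtImInfty
        (fun τ => X.1 (famHeckeVec p hpM i v) (famHeckeGL p i • τ) * 𝕢 (M : ℝ) τ ^ m) := by
      intro i
      have hp0 : (0 : ℝ) < p := Nat.cast_pos.2 hp.out.pos
      cases i with
      | none =>
        refine exists_bdd_comp (famAt (famHeckeVec p hpM none v) X)
          (g := fun τ => famHeckeGL p none • τ) hp0 (n := p) le_rfl fun τ => ?_
        show ((ModularForm.heckeDiagMatrix p • τ : ℍ) : ℂ).im = _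
        rw [ModularForm.coe_heckeDiagMatrix_smul hp.out.ne_zero]
        simp
      | some j =>
        refine exists_bdd_comp (famAt (famHeckeVec p hpM (some j) v) X)
          (g := fun τ => famHeckeGL p (some j) • τ) (inv_pos.2 hp0) (n := 1)
          (by rw [Nat.cast_one]; exact inv_le_one_of_one_le₀ (Nat.one_le_cast.2 hp.out.pos))
          fun τ => ?_
        show ((ModularForm.heckeMatrix p j • τ : ℍ) : ℂ).im = _
        rw [ModularForm.coe_heckeMatrix_smul hp.out.ne_zero]
        rw [Complex.div_natCast_im, Complex.add_im, Complex.natCast_im, add_zero]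
        simp [div_eq_inv_mul]
    choose m hm using hb
    refine ⟨∑ i, m i, ?_⟩
    have h := Finset.prod_induction
      (fun i => fun τ : ℍ =>
        X.1 (famHeckeVec p hpM i v) (famHeckeGL p i • τ) * 𝕢 (M : ℝ) τ ^ m i) IsBoundedAtImInfty
      (fun a b ha hb => ha.mul hb) (Filter.const_boundedAtFilter _ _)
      (fun i (_ : i ∈ Finset.univ) => hm i)
    convert h using 1
    funext τ
    simp [famHeckeFun, Finset.prod_apply, Finset.prod_mul_distrib, Finset.prod_pow_eq_pow_sum]

/-- The representatives in `GL₂(ℝ)` of the double coset on `Γ₁(M)`. -/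
def famDeltaGL (i : Option (Fin p)) : GL (Fin 2) ℝ :=
  Matrix.SpecialLinearGroup.mapGL ℝ (deltaShift M p i : SL(2, ℤ)) * famHeckeGL p i

omit [NeZero M] hp in
include hpM in
theorem delta_eq_famHeckeMat (i : Option (Fin p)) :
    delta M p i =
      ((deltaShift M p i : SL(2, ℤ)) : Matrix (Fin 2) (Fin 2) ℤ) * famHeckeMat p i := by
  rw [delta_eq M p hpM]
  cases i <;> rfl

omit [NeZero M] in
include hpM in
theorem val_famDeltaGL (i : Option (Fin p)) :
    ((famDeltaGL (M := M) p i : GL (Fin 2) ℝ) : Matrix (Fin 2) (Fin 2) ℝ) =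
      (delta M p i).map (Int.castRingHom ℝ) := by
  have h : famHeckeGL p i = HK.heckeGL (deltaIdx M p hpM i) := by cases i <;> rfl
  rw [famDeltaGL, Units.val_mul, h, HK.val_heckeGL, delta_eq M p hpM, Matrix.map_mul,
    Matrix.SpecialLinearGroup.mapGL_coe_matrix]
  rfl

omit [NeZero M] in
theorem deltaCoc_mul_famDeltaGL (g : Gamma1 M) (i : Option (Fin p)) :
    Matrix.SpecialLinearGroup.mapGL ℝ (deltaCoc hpM g i : SL(2, ℤ)) *
        famDeltaGL (M := M) p (deltaNext hpM g i) =
      famDeltaGL (M := M) p i * Matrix.SpecialLinearGroup.mapGL ℝ (g : SL(2, ℤ)) := by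
  have e := congrArg (fun X => X.map (Int.castRingHom ℝ)) (deltaCoc_mul_delta hpM g i)
  simp only [Matrix.map_mul, ← val_famDeltaGL p hpM] at e
  refine Units.ext ?_
  simp only [Units.val_mul, Matrix.SpecialLinearGroup.mapGL_coe_matrix]
  simpa [RingHom.mapMatrix_apply, algebraMap_int_eq] using e

omit [NeZero M] in
theorem rowMul_base_deltaShift (i : Option (Fin p)) :
    rowMul (base M) (deltaShift M p i : SL(2, ℤ)) = famHeckeVec p hpM i (base M) := by
  refine famHeckeVec_unique p hpM _ _ _ ?_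
  show (base M).1 ᵥ* ((deltaShift M p i : SL(2, ℤ)) : Matrix (Fin 2) (Fin 2) ℤ).map
    (Int.castRingHom (ZMod M)) ᵥ* (famHeckeMat p i).map (Int.castRingHom (ZMod M)) = _
  rw [vecMul_vecMul, ← Matrix.map_mul, ← delta_eq_famHeckeMat p hpM]
  funext c
  fin_cases c <;>
    simp [base, vecMul, dotProduct, Fin.sum_univ_two, (delta_mod M p hpM i).1,
      (delta_mod M p hpM i).2]

omit [NeZero l] [NeZero M] hl hp in
theorem addChar_map_sum {ι A R : Type*} [AddCommMonoid A] [CommMonoid R] (ψ : AddChar A R)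
    (s : Finset ι) (f : ι → A) : ψ (∑ i ∈ s, f i) = ∏ i ∈ s, ψ (f i) :=
  map_prod ψ.toMonoidHom (fun i => Multiplicative.ofAdd (f i)) s

/-- The Hecke transform of a family, with its class. -/
theorem exists_heckeFam (X : Fam M M) :
    ∃ Y : Fam M M,
      (∀ (v : PrimVec M) (τ : ℍ), Y.1 v τ =
        (∏ j : Fin p, X.1 (heckeUpper (primeUnit p hpM) (j : ℕ) v)
          (ofComplex (((τ : ℂ) + ((j : ℕ) : ℂ)) / (p : ℂ)))) *
          X.1 (twist (primeUnit p hpM) v) (ofComplex ((p : ℂ) * (τ : ℂ)))) ∧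
      ∀ χ : parHom M (ZMod l), HasClass l X χ → HasClass l Y (heckeT M p hpM χ) := by
  refine ⟨⟨famHeckeFun p hpM X, famHeckeFun_mem p hpM X, famHeckeFun_rowMul p hpM X⟩,
    fun v τ => ?_, fun χ hχ => ?_⟩
  · show famHeckeFun p hpM X v τ = _
    rw [famHeckeFun, Fintype.prod_option, mul_comm,
      ← ModularForm.coe_heckeDiagMatrix_smul hp.out.ne_zero τ, ofComplex_apply]
    refine congrArg₂ _ (Finset.prod_congr rfl fun j _ => ?_) rfl
    rw [← ModularForm.coe_heckeMatrix_smul hp.out.ne_zero, ofComplex_apply]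
    rfl
  · obtain ⟨f, hfd, hf0, hf, hfc⟩ := hχ
    let F : Option (Fin p) → ℍ → ℂ := fun i τ => f (famDeltaGL (M := M) p i • τ)
    have hF : ∀ i, MDiff (F i) ∧ F i ≠ 0 := fun i => by
      refine ⟨?_, ?_⟩
      · have hdet : 0 < (famDeltaGL (M := M) p i).det.val := by
          rw [famDeltaGL, map_mul, Units.val_mul]
          exact mul_pos (by simp) (det_famHeckeGL_pos p i)
        have : MDiff (f ∘ fun τ : ℍ => famDeltaGL (M := M) p i • τ) :=
          hfd.comp (UpperHalfPlane.mdifferentiable_smul hdet :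
            MDiff fun τ : ℍ => famDeltaGL (M := M) p i • τ)
        exact this
      · obtain ⟨τ, hτ⟩ := Function.ne_iff.1 hf0
        exact Function.ne_iff.2 ⟨(famDeltaGL (M := M) p i)⁻¹ • τ, by simpa [F] using hτ⟩
    obtain ⟨hd, h0⟩ := Finset.prod_induction F (fun g => MDiff g ∧ g ≠ 0)
      (fun a b ha hb => ⟨ha.1.mul hb.1, HK.mdiff_mul_ne_zero ha.1 hb.1 ha.2 hb.2⟩)
      ⟨mdifferentiable_const, Function.ne_iff.2 ⟨UpperHalfPlane.I, one_ne_zero⟩⟩
      (fun i (_ : i ∈ Finset.univ) => hF i)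
    refine ⟨∏ i, F i, hd, h0, fun τ => ?_, fun g τ => ?_⟩
    · show (∏ i, F i) τ ^ l = famHeckeFun p hpM X (base M) τ
      rw [Finset.prod_apply, ← Finset.prod_pow, famHeckeFun]
      refine Finset.prod_congr rfl fun i _ => ?_
      show f (famDeltaGL (M := M) p i • τ) ^ l = _
      rw [hf, famDeltaGL, mul_smul, ← rowMul_base_deltaShift p hpM, fam_rowMul]
      rfl
    · rw [Finset.prod_apply, Finset.prod_apply, heckeT_apply, addChar_map_sum,
        ← (deltaNext_bijective hpM g).prod_comp fun i => F i τ, ← Finset.prod_mul_distrib]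
      refine Finset.prod_congr rfl fun i _ => ?_
      show f (famDeltaGL (M := M) p i • (Matrix.SpecialLinearGroup.mapGL ℝ (g : SL(2, ℤ))) • τ) = _
      rw [← mul_smul, ← deltaCoc_mul_famDeltaGL p hpM g i, mul_smul]
      exact hfc _ _

theorem hasClass_famScal (X : Fam M M) (χ : parHom M (ZMod l)) (h : HasClass l X χ) :
    HasClass l (famScal (primeUnit p hpM) X) (diamond M p χ) := by
  obtain ⟨f, hfd, hf0, hf, hfc⟩ := h
  refine ⟨fun τ => f ((gammaP M p : SL(2, ℤ)) • τ), mdiff_comp_smul hfd _,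
    comp_smul_ne_zero hf0 _, fun τ => ?_, fun g τ => ?_⟩
  · show f _ ^ l = X.1 (scal (primeUnit p hpM) (base M)) τ
    rw [hf, ← fam_rowMul]
    refine congrArg (fun v => X.1 v τ) (Subtype.ext (funext fun c => ?_))
    rw [scal_apply, coe_primeUnit, rowMul_apply]
    fin_cases c <;> simp [base, gammaP_one_zero M p hpM, gammaP_one_one M p hpM]
  · dsimp only
    rw [← mul_smul, diamond_apply, ← hfc (conjGammaP M p g), ← mul_smul]
    congr 2
    show _ = (gammaP M p : SL(2, ℤ)) * g * (gammaP M p : SL(2, ℤ))⁻¹ * (gammaP M p : SL(2, ℤ))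
    rw [inv_mul_cancel_right]

end Fermat.Agent.DS.G1
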